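/-
S25 / package A0, piece FREE (helper5050).

For a curve presentation `𝒞 : CurveData k` over an algebraically closed field `k`:
* `𝒞.f` and `𝒞.g` are transcendental over `k`;
* `A₁` is free of finite rank over `k[f]`, and for every `k`-algebra `R` the base change
  `R ⊗[k] A₁` is free over `R[f]` on the basis `1 ⊗ b i`, in the explicit form
  "`polyMap k R f b : (Fin n → R[X]) →ₗ[R] R ⊗[k] A₁`, `c ↦ ∑ i, aeval (1 ⊗ f) (c i) * (1 ⊗ b i)`
  is bijective"; the same for `A₂` and `g`.
Everything is proved for a general `k`-domain `A` with an element `f` such that `A` is finite over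
`k[f]`.
-/
import Fermat.Agent.S25.Core

set_option autoImplicit false

universe u

namespace Fermat.Agent.S25.ATLAS.DIV.LG.F2868.A0Free

open scoped TensorProduct Polynomial
open Polynomial

section transcendence

variable {k A : Type u} [Field k] [CommRing A] [Algebra k A]

/-- A domain which is locally standard smooth of relative dimension one over an algebraically
closed field is not integral over it. -/
theorem not_isIntegral_of_locally_smooth [IsAlgClosed k] [IsDomain A]
    (hsm : RingHom.Locally (RingHom.IsStandardSmoothOfRelativeDimension 1) (algebraMap k A)) :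
    ¬ Algebra.IsIntegral k A := by
  intro hint
  have hbij : Function.Bijective (algebraMap k A) :=
    IsAlgClosed.algebraMap_bijective_of_isIntegral
  obtain ⟨s, hs, h⟩ := hsm
  have hex : ∃ t ∈ s, t ≠ 0 := by
    by_contra hcon
    push Not at hcon
    have h0 : Ideal.span s = ⊥ := by
      rw [Ideal.span_eq_bot]
      exact hcon
    rw [h0] at hs
    exact bot_ne_top hs
  obtain ⟨t, hts, ht0⟩ := hex
  have hP := h t hts
  rw [← IsScalarTower.algebraMap_eq k A (Localization.Away t),
    RingHom.isStandardSmoothOfRelativeDimension_algebraMap] at hP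
  have htu : IsUnit t := by
    obtain ⟨c, rfl⟩ := hbij.2 t
    have hc : c ≠ 0 := by
      rintro rfl
      simp at ht0
    exact (IsUnit.mk0 c hc).map (algebraMap k A)
  have hle : Submonoid.powers t ≤ IsUnit.submonoid A := by
    rintro x ⟨m, rfl⟩
    exact htu.pow m
  have hsurj1 : Function.Surjective (algebraMap A (Localization.Away t)) :=
    (IsLocalization.atUnits A (Submonoid.powers t) (S := Localization.Away t) hle).surjective
  have hsurj : Function.Surjective (algebraMap k (Localization.Away t)) := by
    rw [IsScalarTower.algebraMap_eq k A (Localization.Away t)]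
    exact hsurj1.comp hbij.2
  have hsub : Subsingleton (Ω[Localization.Away t⁄k]) :=
    KaehlerDifferential.subsingleton_of_surjective k _ hsurj
  have hnt : Nontrivial (Localization.Away t) :=
    (IsLocalization.atUnits A (Submonoid.powers t) (S := Localization.Away t)
      hle).toEquiv.symm.nontrivial
  have hrank := Algebra.IsStandardSmoothOfRelativeDimension.rank_kaehlerDifferential
    (R := k) (S := Localization.Away t) 1
  rw [rank_subsingleton'] at hrank
  simp at hrank

/-- If `A` is finite over `k[f]` and locally standard smooth of relative dimension one over the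
algebraically closed field `k`, then `f` is transcendental over `k`. -/
theorem transcendental_of_finite_adjoin [IsAlgClosed k] [IsDomain A] (f : A)
    (hfin : Module.Finite (Algebra.adjoin k ({f} : Set A)) A)
    (hsm : RingHom.Locally (RingHom.IsStandardSmoothOfRelativeDimension 1) (algebraMap k A)) :
    Transcendental k f := by
  intro halg
  apply not_isIntegral_of_locally_smooth hsm
  have hf : IsIntegral k f := halg.isIntegral
  have hle : Algebra.adjoin k ({f} : Set A) ≤ integralClosure k A :=
    Algebra.adjoin_le (Set.singleton_subset_iff.mpr hf)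
  have h1 : Algebra.IsIntegral k (Algebra.adjoin k ({f} : Set A)) := by
    refine ⟨fun x => ?_⟩
    have hx : IsIntegral k (x : A) := hle x.2
    exact (isIntegral_algHom_iff (Algebra.adjoin k ({f} : Set A)).val
      Subtype.val_injective).mp hx
  have h2 : Algebra.IsIntegral (Algebra.adjoin k ({f} : Set A)) A :=
    Algebra.IsIntegral.of_finite _ _
  exact Algebra.IsIntegral.trans (Algebra.adjoin k ({f} : Set A))

end transcendence

section free

variable (k : Type u) {A : Type u} [Field k] [CommRing A] [Algebra k A]

/-- The candidate basis map `R[X]^n → R ⊗[k] A`, `c ↦ ∑ i, c i (1 ⊗ f) * (1 ⊗ b i)`. -/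
noncomputable def polyMap (R : Type u) [CommRing R] [Algebra k R] {n : ℕ} (f : A) (b : Fin n → A) :
    (Fin n → R[X]) →ₗ[R] R ⊗[k] A :=
  ∑ i, ((LinearMap.mulRight R ((1 : R) ⊗ₜ[k] b i)).comp
    (aeval ((1 : R) ⊗ₜ[k] f)).toLinearMap).comp (LinearMap.proj i)

theorem polyMap_apply (R : Type u) [CommRing R] [Algebra k R] {n : ℕ} (f : A) (b : Fin n → A)
    (c : Fin n → R[X]) :
    polyMap k R f b c = ∑ i, aeval ((1 : R) ⊗ₜ[k] f) (c i) * ((1 : R) ⊗ₜ[k] b i) := by
  simp [polyMap]

/-- Multiplication by `X` corresponds to multiplication by `1 ⊗ f`. -/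
theorem polyMap_X_mul (R : Type u) [CommRing R] [Algebra k R] {n : ℕ} (f : A) (b : Fin n → A)
    (c : Fin n → R[X]) :
    polyMap k R f b (fun i => X * c i) = ((1 : R) ⊗ₜ[k] f) * polyMap k R f b c := by
  simp only [polyMap_apply, map_mul, aeval_X, Finset.mul_sum, mul_assoc]

theorem aeval_one_tmul_map (R : Type u) [CommRing R] [Algebra k R] (f : A) (p : k[X]) :
    aeval ((1 : R) ⊗ₜ[k] f) (p.map (algebraMap k R)) = (1 : R) ⊗ₜ[k] aeval f p := by
  rw [aeval_map_algebraMap]
  exact aeval_algHom_apply (Algebra.TensorProduct.includeRight : A →ₐ[k] R ⊗[k] A) f p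

variable {k} in
/-- If `f` is transcendental and the domain `A` is finite over `k[f]`, then `A` has a finite basis
over `k[f]` which stays a basis over `R[f]` after every base change `R ⊗[k] -`. -/
theorem exists_polyBasis [IsDomain A] (f : A) (hf : Transcendental k f)
    (hfin : Module.Finite (Algebra.adjoin k ({f} : Set A)) A) :
    ∃ (n : ℕ) (b : Fin n → A), 0 < n ∧
      (∀ a : A, ∃! c : Fin n → k[X], a = ∑ i, aeval f (c i) * b i) ∧
      ∀ (R : Type u) [CommRing R] [Algebra k R], Function.Bijective (polyMap k R f b) := by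
  classical
  letI alg : Algebra k[X] A := (aeval f).toRingHom.toAlgebra
  have hsmul : ∀ (p : k[X]) (a : A), p • a = aeval f p * a := fun p a => rfl
  have hinj : Function.Injective (aeval f) := transcendental_iff_injective.mp hf
  haveI htf : Module.IsTorsionFree k[X] A := by
    refine ⟨fun p hp a₁ a₂ h => ?_⟩
    have hp0 : aeval f p ≠ 0 := by
      intro h0
      exact hp.ne_zero (hinj (by rw [h0, map_zero]))
    have h' : aeval f p * a₁ = aeval f p * a₂ := h
    exact mul_left_cancel₀ hp0 h'
  haveI hfin' : Module.Finite k[X] A := by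
    obtain ⟨S, hS⟩ := hfin.fg_top
    refine ⟨⟨S, ?_⟩⟩
    rw [eq_top_iff]
    rintro a -
    have ha : a ∈ Submodule.span (Algebra.adjoin k ({f} : Set A)) (S : Set A) := by
      rw [hS]; trivial
    induction ha using Submodule.span_induction with
    | mem x hx => exact Submodule.subset_span hx
    | zero => exact zero_mem _
    | add x y _ _ hx hy => exact add_mem hx hy
    | smul t x _ hx =>
      obtain ⟨p, hp⟩ : ∃ p : k[X], aeval f p = (t : A) := by
        have ht : (t : A) ∈ (aeval f : k[X] →ₐ[k] A).range := by
          rw [← Algebra.adjoin_singleton_eq_range_aeval]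
          exact t.2
        exact ht
      have e : t • x = p • x := by
        rw [hsmul, hp]
        rfl
      rw [e]
      exact Submodule.smul_mem _ _ hx
  obtain ⟨n, B⟩ := Module.basisOfFiniteTypeTorsionFree' (R := k[X]) (M := A)
  have hrepr : ∀ a : A, a = ∑ i, aeval f (B.equivFun a i) * B i := by
    intro a
    conv_lhs => rw [← B.sum_equivFun a]
    rfl
  have huniq : ∀ (c : Fin n → k[X]), B.equivFun (∑ i, aeval f (c i) * B i) = c := by
    intro c
    have e : (∑ i, aeval f (c i) * B i) = ∑ i, c i • B i := rfl
    rw [e]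
    exact B.equivFun_symm_apply c ▸ B.equivFun.apply_symm_apply c
  refine ⟨n, B, ?_, ?_, ?_⟩
  · by_contra hn
    have hn0 : n = 0 := by omega
    subst hn0
    have h1 := hrepr 1
    simp at h1
  · intro a
    refine ⟨B.equivFun a, hrepr a, fun c hc => ?_⟩
    rw [hc, huniq]
  · intro R _ _
    let E : R ⊗[k] A ≃ₗ[R] (Fin n → R[X]) :=
      (TensorProduct.AlgebraTensorModule.congr (LinearEquiv.refl R R)
        (B.equivFun.restrictScalars k)) ≪≫ₗ
      TensorProduct.piRight k R R (fun _ : Fin n => k[X]) ≪≫ₗ
      LinearEquiv.piCongrRight (fun _ : Fin n => (polyEquivTensor' k R).symm.toLinearEquiv)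
    have hE : ∀ x : R ⊗[k] A, polyMap k R f B (E x) = x := by
      intro x
      induction x using TensorProduct.induction_on with
      | zero => simp
      | add x y hx hy => rw [map_add, map_add, hx, hy]
      | tmul r a =>
        have e1 : E (r ⊗ₜ[k] a) = fun i => r • (B.equivFun a i).map (algebraMap k R) := by
          ext1 i
          simp [E]
        rw [e1, polyMap_apply]
        have e2 : ∀ i, aeval ((1 : R) ⊗ₜ[k] f) (r • (B.equivFun a i).map (algebraMap k R)) *
            ((1 : R) ⊗ₜ[k] B i) = r ⊗ₜ[k] (aeval f (B.equivFun a i) * B i) := by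
          intro i
          rw [map_smul, aeval_one_tmul_map, Algebra.smul_mul_assoc,
            Algebra.TensorProduct.tmul_mul_tmul, mul_one, TensorProduct.smul_tmul', smul_eq_mul,
            mul_one]
        rw [Finset.sum_congr rfl (fun i _ => e2 i), ← TensorProduct.tmul_sum, ← hrepr a]
    have hEq : ⇑(polyMap k R f B) = ⇑E.symm := by
      funext c
      have := hE (E.symm c)
      rw [E.apply_symm_apply] at this
      exact this
    rw [hEq]
    exact E.symm.bijective

end free

section curve

variable {k : Type u} [Field k] [IsAlgClosed k] (𝒞 : CurveData k)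

/-- `f` is transcendental over `k`. -/
theorem transcendental_f : Transcendental k 𝒞.f :=
  haveI := 𝒞.dom₁
  transcendental_of_finite_adjoin 𝒞.f 𝒞.fin₁ 𝒞.smooth₁

/-- `g` is transcendental over `k`. -/
theorem transcendental_g : Transcendental k 𝒞.g :=
  haveI := 𝒞.dom₂
  transcendental_of_finite_adjoin 𝒞.g 𝒞.fin₂ 𝒞.smooth₂

/-- `A₁` is free of finite positive rank over `k[f]`, compatibly with every base change:
`B₁ = R ⊗[k] A₁` is free over `R[f]` on `1 ⊗ b i`. -/
theorem exists_polyBasis₁ :
    ∃ (n : ℕ) (b : Fin n → 𝒞.A₁), 0 < n ∧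
      (∀ a : 𝒞.A₁, ∃! c : Fin n → k[X], a = ∑ i, aeval 𝒞.f (c i) * b i) ∧
      ∀ (R : Type u) [CommRing R] [Algebra k R], Function.Bijective (polyMap k R 𝒞.f b) :=
  haveI := 𝒞.dom₁
  exists_polyBasis 𝒞.f (transcendental_f 𝒞) 𝒞.fin₁

/-- `A₂` is free of finite positive rank over `k[g]`, compatibly with every base change:
`B₂ = R ⊗[k] A₂` is free over `R[g]` on `1 ⊗ b i`. -/
theorem exists_polyBasis₂ :
    ∃ (n : ℕ) (b : Fin n → 𝒞.A₂), 0 < n ∧
      (∀ a : 𝒞.A₂, ∃! c : Fin n → k[X], a = ∑ i, aeval 𝒞.g (c i) * b i) ∧
      ∀ (R : Type u) [CommRing R] [Algebra k R], Function.Bijective (polyMap k R 𝒞.g b) :=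
  haveI := 𝒞.dom₂
  exists_polyBasis 𝒞.g (transcendental_g 𝒞) 𝒞.fin₂

end curve

end Fermat.Agent.S25.ATLAS.DIV.LG.F2868.A0Free
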