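/-
S25 (Jacobian), algebra side, piece ORDFLAT of helper2868: order ideals.  Mathlib only.

For `s : N` (a `B`-module), `ordIdeal B s` is the ideal `{ψ s | ψ ∈ Dual B N}` of `B`: the ideal of
the zero scheme of the section `s` when `N` is an invertible module.

* functoriality: `ordIdeal_linearEquiv`, `ordIdeal_smul_of_isUnit`, `ordIdeal_map_le`,
  `map_ordIdeal_le` (semilinear maps: localisation, base change);
* `mem_smul_top_of_ordIdeal_le`: for `N` projective, `ordIdeal B s ≤ I → s ∈ I N`;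
* `dual_apply_smul_comm`: rank one, `ψ n • s = ψ s • n` on an invertible module;
* `dual_mem_smul_top_of_apply_mem`: `N` invertible, `P` prime, `s ∉ P N`, `ψ s ∈ P → ψ ∈ P N^∨`
  (the map `N^∨/P → B/P`, `ψ ↦ ψ s`, is injective on the fibre);
* `mem_smul_ordIdeal_of_mem`: hence `ordIdeal B s ∩ P ⊆ P * ordIdeal B s`.
-/
import Mathlib

set_option autoImplicit false

namespace Fermat.Agent.S25.ATLAS.DIV.LG.F2868

open TensorProduct

section basic

variable {B : Type*} [CommRing B] {N : Type*} [AddCommGroup N] [Module B N]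

/-- The order ideal of `s`: all values `ψ s` of linear functionals on `s`. -/
def ordIdeal (B : Type*) [CommRing B] {N : Type*} [AddCommGroup N] [Module B N] (s : N) : Ideal B :=
  LinearMap.range (Module.Dual.eval B N s)

theorem mem_ordIdeal {s : N} {x : B} : x ∈ ordIdeal B s ↔ ∃ ψ : Module.Dual B N, ψ s = x :=
  Iff.rfl

theorem apply_mem_ordIdeal (ψ : Module.Dual B N) (s : N) : ψ s ∈ ordIdeal B s := ⟨ψ, rfl⟩

/-- Evaluation at `s`, as a surjection of the dual onto the order ideal. -/
def evalOrd (s : N) : Module.Dual B N →ₗ[B] ordIdeal B s :=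
  (Module.Dual.eval B N s).rangeRestrict

@[simp] theorem evalOrd_apply (s : N) (ψ : Module.Dual B N) : (evalOrd s ψ : B) = ψ s := rfl

theorem evalOrd_surjective (s : N) : Function.Surjective (evalOrd (B := B) s) :=
  LinearMap.surjective_rangeRestrict _

theorem ordIdeal_linearEquiv {N' : Type*} [AddCommGroup N'] [Module B N'] (e : N ≃ₗ[B] N')
    (s : N) : ordIdeal B (e s) = ordIdeal B s := by
  ext x
  simp only [mem_ordIdeal]
  constructor
  · rintro ⟨ψ, rfl⟩
    exact ⟨ψ ∘ₗ e.toLinearMap, rfl⟩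
  · rintro ⟨ψ, rfl⟩
    exact ⟨ψ ∘ₗ e.symm.toLinearMap, by simp⟩

theorem ordIdeal_smul_of_isUnit {u : B} (hu : IsUnit u) (s : N) :
    ordIdeal B (u • s) = ordIdeal B s := by
  obtain ⟨v, rfl⟩ := hu
  ext x
  simp only [mem_ordIdeal]
  constructor
  · rintro ⟨ψ, rfl⟩
    exact ⟨(v : B) • ψ, by simp⟩
  · rintro ⟨ψ, rfl⟩
    refine ⟨((v⁻¹ : Bˣ) : B) • ψ, ?_⟩
    rw [LinearMap.smul_apply, map_smul, smul_eq_mul, smul_eq_mul, ← mul_assoc, Units.inv_mul,
      one_mul]

/-- For a projective module, an element all of whose coordinates lie in `I` belongs to `I N`. -/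
theorem mem_smul_top_of_ordIdeal_le [Module.Projective B N] (I : Ideal B) (s : N)
    (h : ordIdeal B s ≤ I) : s ∈ I • (⊤ : Submodule B N) := by
  obtain ⟨σ, hσ⟩ := Module.projective_def'.mp ‹Module.Projective B N›
  have hs : s = Finsupp.linearCombination B id (σ s) := by
    have := congrArg (fun f : N →ₗ[B] N => f s) hσ
    simpa using this.symm
  rw [hs, Finsupp.linearCombination_apply, Finsupp.sum]
  refine Submodule.sum_mem _ fun n _ => Submodule.smul_mem_smul ?_ Submodule.mem_top
  exact h (apply_mem_ordIdeal ((Finsupp.lapply n).comp σ) s)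

/-- A linear functional maps `I N` into `I`. -/
theorem dual_apply_mem_of_mem_smul_top (ψ : Module.Dual B N) (I : Ideal B) {n : N}
    (hn : n ∈ I • (⊤ : Submodule B N)) : ψ n ∈ I := by
  refine Submodule.smul_induction_on hn (fun r hr m _ => ?_) (fun x y hx hy => ?_)
  · rw [map_smul, smul_eq_mul]
    exact I.mul_mem_right _ hr
  · rw [map_add]
    exact I.add_mem hx hy

/-- For a projective module `N` and a prime ideal `P`, the quotient `N / P N` is torsion free
over `B / P`: `b • n ∈ P N` implies `b ∈ P` or `n ∈ P N`. -/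
theorem mem_or_mem_smul_top_of_smul_mem [Module.Projective B N] (P : Ideal B) [P.IsPrime]
    {b : B} {n : N} (h : b • n ∈ P • (⊤ : Submodule B N)) :
    b ∈ P ∨ n ∈ P • (⊤ : Submodule B N) := by
  by_cases hb : b ∈ P
  · exact Or.inl hb
  refine Or.inr (mem_smul_top_of_ordIdeal_le P n ?_)
  rintro x ⟨ψ, rfl⟩
  have h1 : ψ (b • n) ∈ P := dual_apply_mem_of_mem_smul_top ψ P h
  rw [map_smul, smul_eq_mul] at h1
  exact (Ideal.IsPrime.mem_or_mem inferInstance h1).resolve_left hb

end basic

section semilinear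

variable {B : Type*} [CommRing B] {N : Type*} [AddCommGroup N] [Module B N]
  {B' : Type*} [CommRing B'] {N' : Type*} [AddCommGroup N'] [Module B' N']

/-- Order ideals can only shrink to the extension of the order ideal under a semilinear map
out of a projective module (e.g. a localisation or a base change map). -/
theorem ordIdeal_map_le [Module.Projective B N] (φ : B →+* B') (h : N →+ N')
    (hh : ∀ (b : B) (n : N), h (b • n) = φ b • h n) (s : N) :
    ordIdeal B' (h s) ≤ Ideal.map φ (ordIdeal B s) := by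
  classical
  obtain ⟨σ, hσ⟩ := Module.projective_def'.mp ‹Module.Projective B N›
  have hs : s = ∑ y ∈ (σ s).support, (σ s) y • y := by
    have := congrArg (fun f : N →ₗ[B] N => f s) hσ
    simpa [Finsupp.linearCombination_apply, Finsupp.sum] using this.symm
  have hhs : h s = ∑ y ∈ (σ s).support, φ ((σ s) y) • h y := by
    conv_lhs => rw [hs]
    rw [map_sum]
    exact Finset.sum_congr rfl fun y _ => hh _ _
  rintro x ⟨ψ', rfl⟩
  change ψ' (h s) ∈ _
  rw [hhs, map_sum]
  refine Ideal.sum_mem _ fun y _ => ?_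
  rw [map_smul, smul_eq_mul]
  exact Ideal.mul_mem_right _ _
    (Ideal.mem_map_of_mem φ (apply_mem_ordIdeal ((Finsupp.lapply y).comp σ) s))

/-- If every functional extends along the semilinear map `h`, the order ideal of `h s` contains
the extension of the order ideal of `s`. -/
theorem map_ordIdeal_le (φ : B →+* B') (h : N →+ N')
    (hext : ∀ ψ : Module.Dual B N, ∃ ψ' : Module.Dual B' N', ∀ n, ψ' (h n) = φ (ψ n)) (s : N) :
    Ideal.map φ (ordIdeal B s) ≤ ordIdeal B' (h s) := by
  rw [Ideal.map_le_iff_le_comap]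
  rintro x ⟨ψ, rfl⟩
  obtain ⟨ψ', hψ'⟩ := hext ψ
  exact ⟨ψ', hψ' s⟩

theorem ordIdeal_map_eq [Module.Projective B N] (φ : B →+* B') (h : N →+ N')
    (hh : ∀ (b : B) (n : N), h (b • n) = φ b • h n)
    (hext : ∀ ψ : Module.Dual B N, ∃ ψ' : Module.Dual B' N', ∀ n, ψ' (h n) = φ (ψ n)) (s : N) :
    ordIdeal B' (h s) = Ideal.map φ (ordIdeal B s) :=
  le_antisymm (ordIdeal_map_le φ h hh s) (map_ordIdeal_le φ h hext s)

end semilinear

section invertible

variable {B : Type*} [CommRing B] {N : Type*} [AddCommGroup N] [Module B N]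
  [Module.Invertible B N]

/-- Rank one: `ψ n • s = ψ s • n` on an invertible module. -/
theorem dual_apply_smul_comm (ψ : Module.Dual B N) (n s : N) : ψ n • s = ψ s • n := by
  have h1 := congrArg (TensorProduct.lift ((LinearMap.lsmul B N).comp ψ))
    (Module.Invertible.tmul_comm (R := B) (m₁ := n) (m₂ := s))
  simpa using h1

/-- Rank one, dual form: `ψ₀ s • ψ = ψ s • ψ₀`. -/
theorem dual_smul_comm (ψ₀ ψ : Module.Dual B N) (s : N) : ψ₀ s • ψ = ψ s • ψ₀ := by
  ext n
  have h := congrArg ψ₀ (dual_apply_smul_comm ψ n s)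
  rw [map_smul, map_smul, smul_eq_mul, smul_eq_mul] at h
  rw [LinearMap.smul_apply, LinearMap.smul_apply, smul_eq_mul, smul_eq_mul, mul_comm, h]

/-- **Fibre lemma.**  `N` invertible, `P` a prime ideal of `B`, `s ∉ P N`.  A functional whose
value on `s` lies in `P` lies in `P N^∨`. -/
theorem dual_mem_smul_top_of_apply_mem (P : Ideal B) [P.IsPrime] (s : N)
    (hs : s ∉ P • (⊤ : Submodule B N)) (ψ : Module.Dual B N) (hψ : ψ s ∈ P) :
    ψ ∈ P • (⊤ : Submodule B (Module.Dual B N)) := by
  have hex : ∃ ψ₀ : Module.Dual B N, ψ₀ s ∉ P := by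
    by_contra hcon
    push Not at hcon
    apply hs
    refine mem_smul_top_of_ordIdeal_le P s ?_
    rintro x ⟨ψ₀, rfl⟩
    exact hcon ψ₀
  obtain ⟨ψ₀, hψ₀⟩ := hex
  have h1 : ψ₀ s • ψ ∈ P • (⊤ : Submodule B (Module.Dual B N)) := by
    rw [dual_smul_comm ψ₀ ψ s]
    exact Submodule.smul_mem_smul hψ Submodule.mem_top
  exact (mem_or_mem_smul_top_of_smul_mem P h1).resolve_left hψ₀

/-- `ordIdeal B s ∩ P ⊆ P * ordIdeal B s` for a prime `P` with `s ∉ P N`. -/
theorem mem_mul_ordIdeal_of_mem (P : Ideal B) [P.IsPrime] (s : N)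
    (hs : s ∉ P • (⊤ : Submodule B N)) {x : B} (hx : x ∈ ordIdeal B s) (hxP : x ∈ P) :
    x ∈ P * ordIdeal B s := by
  obtain ⟨ψ, rfl⟩ := hx
  have hψ := dual_mem_smul_top_of_apply_mem P s hs ψ hxP
  have key : ∀ χ : Module.Dual B N, χ ∈ P • (⊤ : Submodule B (Module.Dual B N)) →
      χ s ∈ P * ordIdeal B s := by
    intro χ hχ
    refine Submodule.smul_induction_on hχ (fun r hr m _ => ?_) (fun a b ha hb => ?_)
    · rw [LinearMap.smul_apply, smul_eq_mul]
      exact Ideal.mul_mem_mul hr (apply_mem_ordIdeal m s)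
    · rw [LinearMap.add_apply]
      exact Ideal.add_mem _ ha hb
  exact key ψ hψ

end invertible

end Fermat.Agent.S25.ATLAS.DIV.LG.F2868
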