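/-
S25 (Jacobian), algebra side, piece ORDFLAT of helper2868.  Mathlib only.

* `IsPolyFree R f`: the `R`-algebra `B` is free of finite rank over `R[f]` (on a finite family
  `e`, in the elementwise form `c ↦ ∑ i, aeval f (c i) * e i` bijective).
* `finite_free_quotient_span_aeval`: then `B ⧸ (q(f))` is a finite free `R`-module for every
  monic `q ∈ R[X]`.
* `smul_restrictScalars_of_mem_map_mul`: `(𝔪 B) * I ⊆ 𝔪 • I`.
* `ordIdeal_quotient_finite_projective`: **(Flat), direct form for order ideals.**
-/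
import Fermat.Agent.S25.ATLAS.DIV.LG.F2868.OrdIdeal
import Fermat.Agent.S25.ATLAS.DIV.LG.F2868.FibreCoker

set_option autoImplicit false
set_option linter.style.haveILetI false

universe u v

namespace Fermat.Agent.S25.ATLAS.DIV.LG.F2868

open Polynomial

section polyfree

variable (R : Type u) [CommRing R] {B : Type v} [CommRing B] [Algebra R B]

/-- `B` is free of finite rank over `R[f]`: every element of `B` is uniquely
`∑ i, c i (f) * e i` with `c i ∈ R[X]`. -/
def IsPolyFree (f : B) : Prop :=
  ∃ (n : ℕ) (e : Fin n → B),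
    Function.Bijective (fun c : Fin n → R[X] => ∑ i, aeval f (c i) * e i)

variable {R}

/-- If `B` is free of finite rank over `R[f]` and `q ∈ R[X]` is monic, then `B ⧸ (q(f))` is a
finite free `R`-module. -/
theorem finite_free_quotient_span_aeval {f : B} (hfree : IsPolyFree R f) (q : R[X])
    (hq : q.Monic) :
    Module.Finite R (B ⧸ Ideal.span {aeval f q}) ∧ Module.Free R (B ⧸ Ideal.span {aeval f q}) := by
  obtain ⟨n, e, hbij⟩ := hfree
  let Φ₀ : (Fin n → R[X]) →ₗ[R] B :=
    { toFun := fun c => ∑ i, aeval f (c i) * e i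
      map_add' := fun c c' => by
        simp only [Pi.add_apply, map_add, add_mul, Finset.sum_add_distrib]
      map_smul' := fun r c => by
        simp only [Pi.smul_apply, map_smul, RingHom.id_apply, Finset.smul_sum, smul_mul_assoc] }
  let Φ : (Fin n → R[X]) ≃ₗ[R] B := LinearEquiv.ofBijective Φ₀ hbij
  have hΦ : ∀ c, Φ c = ∑ i, aeval f (c i) * e i := fun c => rfl
  have hmul : ∀ (p : R[X]) (c : Fin n → R[X]), Φ (fun i => p * c i) = aeval f p * Φ c := by
    intro p c
    rw [hΦ, hΦ, Finset.mul_sum]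
    refine Finset.sum_congr rfl fun i _ => ?_
    rw [map_mul, mul_assoc]
  -- the comparison map
  let Ψ : B →ₗ[R] (Fin n → AdjoinRoot q) :=
    (LinearMap.pi fun i => (AdjoinRoot.mkₐ q).toLinearMap ∘ₗ LinearMap.proj i) ∘ₗ
      Φ.symm.toLinearMap
  have hΨ : ∀ (b : B) (i : Fin n), Ψ b i = AdjoinRoot.mk q (Φ.symm b i) := fun b i => rfl
  have hΨsurj : Function.Surjective Ψ := by
    intro y
    choose c hc using fun i => AdjoinRoot.mk_surjective (y i)
    refine ⟨Φ c, ?_⟩
    funext i
    rw [hΨ, LinearEquiv.symm_apply_apply, hc]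
  have hΨker : LinearMap.ker Ψ = (Ideal.span {aeval f q}).restrictScalars R := by
    ext b
    rw [LinearMap.mem_ker, Submodule.restrictScalars_mem, Ideal.mem_span_singleton']
    constructor
    · intro hb
      have hdvd : ∀ i, q ∣ Φ.symm b i := fun i => by
        rw [← AdjoinRoot.mk_eq_zero, ← hΨ, hb]; rfl
      choose c hc using hdvd
      refine ⟨Φ c, ?_⟩
      rw [mul_comm, ← hmul]
      have : (fun i => q * c i) = Φ.symm b := funext fun i => (hc i).symm
      rw [this, LinearEquiv.apply_symm_apply]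
    · rintro ⟨a, rfl⟩
      funext i
      rw [hΨ, mul_comm, ← Φ.apply_symm_apply a, ← hmul, LinearEquiv.symm_apply_apply,
        Pi.zero_apply, AdjoinRoot.mk_eq_zero]
      exact dvd_mul_right _ _
  let ε : (B ⧸ Ideal.span {aeval f q}) ≃ₗ[R] (Fin n → AdjoinRoot q) :=
    (Submodule.Quotient.restrictScalarsEquiv R (Ideal.span {aeval f q})).symm ≪≫ₗ
      (Submodule.quotEquivOfEq _ _ hΨker.symm) ≪≫ₗ
      (LinearMap.quotKerEquivOfSurjective Ψ hΨsurj)
  haveI : Module.Free R (AdjoinRoot q) := Module.Free.of_basis (AdjoinRoot.powerBasis' hq).basis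
  haveI : Module.Finite R (AdjoinRoot q) := (AdjoinRoot.powerBasis' hq).finite
  exact ⟨Module.Finite.equiv ε.symm, Module.Free.of_equiv ε.symm⟩

end polyfree

section smul

variable {R : Type u} [CommRing R] {B : Type v} [CommRing B] [Algebra R B]

/-- `(𝔪 B) * I ⊆ 𝔪 • I`. -/
theorem smul_restrictScalars_of_mem_map_mul (𝔪 : Ideal R) (I : Ideal B) {x : B}
    (hx : x ∈ 𝔪.map (algebraMap R B) * I) :
    x ∈ 𝔪 • (I.restrictScalars R : Submodule R B) := by
  have key : ∀ m ∈ 𝔪.map (algebraMap R B), ∀ a ∈ I,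
      m * a ∈ 𝔪 • (I.restrictScalars R : Submodule R B) := by
    intro m hm
    refine Submodule.span_induction (p := fun m _ => ∀ a ∈ I,
      m * a ∈ 𝔪 • (I.restrictScalars R : Submodule R B)) ?_ ?_ ?_ ?_ hm
    · rintro _ ⟨r, hr, rfl⟩ a ha
      rw [← Algebra.smul_def]
      exact Submodule.smul_mem_smul hr ha
    · intro a _
      rw [zero_mul]
      exact zero_mem _
    · intro x y _ _ hx hy a ha
      rw [add_mul]
      exact add_mem (hx a ha) (hy a ha)
    · intro b x _ hx a ha
      rw [smul_eq_mul, mul_assoc, mul_left_comm]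
      exact hx (b * a) (I.mul_mem_left b ha)
  refine Submodule.mul_induction_on hx (fun m hm a ha => key m hm a ha) (fun x y hx hy => ?_)
  exact add_mem hx hy

/-- `𝔪 • ⊤` (as an `R`-submodule of `B`) is the extended ideal `𝔪 B`. -/
theorem mem_map_algebraMap_of_mem_smul_top (𝔪 : Ideal R) {x : B}
    (hx : x ∈ 𝔪 • (⊤ : Submodule R B)) : x ∈ 𝔪.map (algebraMap R B) := by
  refine Submodule.smul_induction_on hx (fun r hr b _ => ?_) (fun x y hx hy => ?_)
  · rw [Algebra.smul_def]
    exact Ideal.mul_mem_right _ _ (Ideal.mem_map_of_mem _ hr)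
  · exact Ideal.add_mem _ hx hy

end smul

section main

variable {R : Type u} [CommRing R] {B : Type v} [CommRing B] [Algebra R B]
  {N : Type*} [AddCommGroup N] [Module B N] [Module.Invertible B N]

/-- The order ideal of an element of an invertible module is finitely generated. -/
theorem ordIdeal_fg (s : N) : (ordIdeal B s).FG := by
  unfold ordIdeal
  rw [LinearMap.range_eq_map]
  exact Module.Finite.fg_top.map _

/-- **(Flat), direct form.**  `B` an `R`-algebra free of finite rank over `R[f]` such that `𝔪 B`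
is prime for every maximal ideal `𝔪` of `R`; `N` an invertible `B`-module and `s ∈ N` nonzero in
every closed fibre; if some monic polynomial in `f` lies in the order ideal `𝔞` of `s`, then
`B ⧸ 𝔞` is a finite projective `R`-module.  (No noetherian hypothesis, no cohomology.) -/
theorem ordIdeal_quotient_finite_projective {f : B} (hfree : IsPolyFree R f)
    (hprime : ∀ 𝔪 : Ideal R, 𝔪.IsMaximal → (𝔪.map (algebraMap R B)).IsPrime)
    (s : N)
    (hs : ∀ 𝔪 : Ideal R, 𝔪.IsMaximal → s ∉ (𝔪.map (algebraMap R B)) • (⊤ : Submodule B N))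
    (q : R[X]) (hq : q.Monic) (hmem : aeval f q ∈ ordIdeal B s) :
    Module.Finite R (B ⧸ ordIdeal B s) ∧ Module.Projective R (B ⧸ ordIdeal B s) := by
  obtain ⟨hfin, hfreeQ⟩ := finite_free_quotient_span_aeval hfree q hq
  haveI := hfin
  haveI : Module.Projective R (B ⧸ Ideal.span {aeval f q}) := Module.Projective.of_free
  refine finite_projective_quotient_of_fibrewise (ordIdeal B s) (aeval f q) hmem (ordIdeal_fg s) ?_
  intro 𝔪 h𝔪 x hx hxm
  haveI := hprime 𝔪 h𝔪
  exact smul_restrictScalars_of_mem_map_mul 𝔪 _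
    (mem_mul_ordIdeal_of_mem _ s (hs 𝔪 h𝔪) hx (mem_map_algebraMap_of_mem_smul_top 𝔪 hxm))

end main

end Fermat.Agent.S25.ATLAS.DIV.LG.F2868
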